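import Mathlib
import Fermat.Agent.LT.T2.H511.FDSpec

/-!
# Row LT, tower T2, sub-leaf T2.03a.3 = `H511.LeafConjAlg` (helper988)

OFF-MAIN.  `leafConjAlg988 : H511.LeafConjAlg K` (= `H511.ConjAlgC K`), unconditional:
the three conjugations of the upper unipotent `n(u)` of `GL₂(𝔸_K)`:

1. `diag(m,1) n(u) diag(m,1)⁻¹ = n(m u)` for the rational matrix `diag(m,1)`, `m > 0`;
2. central elements commute with `n(u)`;
3. `a⁻¹ n(u) a = n(u σ)` for `a` in the ray of `s > 0`, `σ = (a⁻¹)₀₀`: the entries of `a` are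
   determined by `A0.TrivAtFin` and by the injectivity of `extensionEmbedding`, and
   `extensionEmbedding` is an isometry.

Bytes typed against `LT/T2/H511/FDSpec.lean` (sha256 ad79b18a) of `origin/helper511@94e516506`.
-/

set_option autoImplicit false

open IsDedekindDomain NumberField
open Fermat.Agent.LT.H556.A0

noncomputable section

namespace Fermat.Agent.LT.T2.H988

open Fermat.Agent.LT.T2 Fermat.Agent.LT.T2.H386 Fermat.Agent.LT.T2.H511

variable {K : Type} [Field K] [NumberField K]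

/-! ## Matrix identities over a commutative ring -/

section Mat

variable {R : Type*} [CommRing R]

/-- `[[1,u],[0,1]] · diag(c, c) = diag(c, c) · [[1,u],[0,1]]`. -/
theorem unipMat_mul_scalar988 (u c : R) :
    (!![1, u; 0, 1] : Matrix (Fin 2) (Fin 2) R) * Matrix.diagonal (fun _ => c)
      = Matrix.diagonal (fun _ => c) * !![1, u; 0, 1] := by
  ext i j
  fin_cases i <;> fin_cases j <;>
    simp [Matrix.mul_apply, Matrix.diagonal, mul_comm]

omit [CommRing R] in
/-- A `2 × 2` matrix is determined by its four entries. -/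
theorem mat_eq_of_entries988 (A : Matrix (Fin 2) (Fin 2) R) :
    A = !![A 0 0, A 0 1; A 1 0, A 1 1] := by
  ext i j
  fin_cases i <;> fin_cases j <;> rfl

/-- `[[1,u],[0,1]] · diag(α, 1) = diag(α, 1) · [[1, u σ],[0,1]]` when `α σ = 1`. -/
theorem unipMat_mul_diag988 (u α σ : R) (h : α * σ = 1) :
    (!![1, u; 0, 1] : Matrix (Fin 2) (Fin 2) R) * !![α, 0; 0, 1]
      = !![α, 0; 0, 1] * !![1, u * σ; 0, 1] := by
  ext i j
  fin_cases i <;> fin_cases j <;>
    simp [Matrix.mul_apply, Fin.sum_univ_two]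
  calc u = u * (α * σ) := by rw [h, mul_one]
    _ = α * (u * σ) := by ring

/-- `diag(m, 1) · [[1,u],[0,1]] = [[1, m u],[0,1]] · diag(m, 1)`. -/
theorem diag_mul_unipMat988 (u m : R) :
    (!![m, 0; 0, 1] : Matrix (Fin 2) (Fin 2) R) * !![1, u; 0, 1]
      = !![1, m * u; 0, 1] * !![m, 0; 0, 1] := by
  ext i j
  fin_cases i <;> fin_cases j <;>
    simp [Matrix.mul_apply, Fin.sum_univ_two]

end Mat

/-! ## (1) The rational diagonal matrix -/

/-- `diag(m, 1) ∈ GL₂(K)`, `m > 0`. -/
def diagNat988 (K : Type) [Field K] [NumberField K] (m : ℕ) (hm : 0 < m) : GL (Fin 2) K :=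
  ⟨!![(m : K), 0; 0, 1], !![(m : K)⁻¹, 0; 0, 1],
    by
      have h : (m : K) ≠ 0 := Nat.cast_ne_zero.2 hm.ne'
      ext i j
      fin_cases i <;> fin_cases j <;> simp [Matrix.mul_apply, Fin.sum_univ_two, h],
    by
      have h : (m : K) ≠ 0 := Nat.cast_ne_zero.2 hm.ne'
      ext i j
      fin_cases i <;> fin_cases j <;> simp [Matrix.mul_apply, Fin.sum_univ_two, h]⟩

theorem diagNat988_coe (m : ℕ) (hm : 0 < m) :
    ((diagNat988 K m hm : GL (Fin 2) K) : Matrix (Fin 2) (Fin 2) K) = !![(m : K), 0; 0, 1] :=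
  rfl

theorem ratG_diagNat988_coe (m : ℕ) (hm : 0 < m) :
    ((T1.ratG K (diagNat988 K m hm) : G K) : Matrix (Fin 2) (Fin 2) (Adl K))
      = !![(m : Adl K), 0; 0, 1] := by
  ext i j
  have h : ((T1.ratG K (diagNat988 K m hm) : G K) : Matrix (Fin 2) (Fin 2) (Adl K)) i j
      = algebraMap K (Adl K) ((diagNat988 K m hm : GL (Fin 2) K) i j) := rfl
  rw [h, diagNat988_coe]
  fin_cases i <;> fin_cases j <;> simp

/-- **(1)** `diag(m,1) n(u) diag(m,1)⁻¹ = n(m u)`. -/
theorem conj_diagNat988 (m : ℕ) (hm : 0 < m) (u : Adl K) :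
    T1.ratG K (diagNat988 K m hm) * unip386 u * (T1.ratG K (diagNat988 K m hm))⁻¹
      = unip386 ((m : Adl K) * u) := by
  rw [mul_inv_eq_iff_eq_mul]
  apply Units.ext
  rw [Units.val_mul, Units.val_mul, ratG_diagNat988_coe, unip386_coe, unip386_coe]
  exact diag_mul_unipMat988 u (m : Adl K)

/-! ## (2) Central elements -/

/-- **(2)** central elements commute with `n(u)`. -/
theorem conj_central988 (z : G K) (hz : T1.IsCentral K z) (u : Adl K) :
    z⁻¹ * unip386 u * z = unip386 u := by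
  obtain ⟨c, hc⟩ := hz
  rw [mul_assoc, inv_mul_eq_iff_eq_mul]
  apply Units.ext
  rw [Units.val_mul, Units.val_mul, hc, unip386_coe]
  exact unipMat_mul_scalar988 u c

/-! ## (3) The ray -/

/-- Two adeles with the same components are equal. -/
theorem adl_ext988 {x y : Adl K} (h1 : ∀ w : InfinitePlace K, x.1 w = y.1 w)
    (h2 : ∀ v : HeightOneSpectrum (𝓞 K), x.2 v = y.2 v) : x = y :=
  Prod.ext (funext h1) (FiniteAdeleRing.ext K h2)

theorem adl_zero_fst988 (w : InfinitePlace K) : (0 : Adl K).1 w = 0 := rfl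

theorem adl_zero_snd988 (v : HeightOneSpectrum (𝓞 K)) : (0 : Adl K).2 v = 0 := rfl

theorem adl_one_fst988 (w : InfinitePlace K) : (1 : Adl K).1 w = 1 := rfl

theorem adl_one_snd988 (v : HeightOneSpectrum (𝓞 K)) : (1 : Adl K).2 v = 1 := rfl

/-- The matrix of an element of the ray is `diag(α, 1)`. -/
theorem ray_coe988 (a : G K) (s : ℝ) (ha : T1.IsRay K a s) :
    (a : Matrix (Fin 2) (Fin 2) (Adl K))
      = !![(a : Matrix (Fin 2) (Fin 2) (Adl K)) 0 0, 0; 0, 1] := by
  obtain ⟨hfin, hinf⟩ := ha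
  have hF : ∀ (v : HeightOneSpectrum (𝓞 K)) (i j : Fin 2),
      ((a : Matrix (Fin 2) (Fin 2) (Adl K)) i j).2 v
        = (1 : Matrix (Fin 2) (Fin 2) (v.adicCompletion K)) i j := fun v i j =>
    congrFun (congrFun (hfin v) i) j
  have hI : ∀ (w : InfinitePlace K) (i j : Fin 2),
      InfinitePlace.Completion.extensionEmbedding w
        (((a : Matrix (Fin 2) (Fin 2) (Adl K)) i j).1 w)
        = (!![(s : ℂ), 0; 0, 1] : Matrix (Fin 2) (Fin 2) ℂ) i j := fun w i j =>
    congrFun (congrFun (hinf w) i) j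
  have h01 : (a : Matrix (Fin 2) (Fin 2) (Adl K)) 0 1 = 0 := by
    apply adl_ext988
    · intro w
      apply (InfinitePlace.Completion.extensionEmbedding w).injective
      rw [hI w 0 1, adl_zero_fst988, map_zero]
      simp
    · intro v
      rw [hF v 0 1, adl_zero_snd988]
      simp
  have h10 : (a : Matrix (Fin 2) (Fin 2) (Adl K)) 1 0 = 0 := by
    apply adl_ext988
    · intro w
      apply (InfinitePlace.Completion.extensionEmbedding w).injective
      rw [hI w 1 0, adl_zero_fst988, map_zero]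
      simp
    · intro v
      rw [hF v 1 0, adl_zero_snd988]
      simp
  have h11 : (a : Matrix (Fin 2) (Fin 2) (Adl K)) 1 1 = 1 := by
    apply adl_ext988
    · intro w
      apply (InfinitePlace.Completion.extensionEmbedding w).injective
      rw [hI w 1 1, adl_one_fst988, map_one]
      simp
    · intro v
      rw [hF v 1 1, adl_one_snd988]
      simp
  conv_lhs => rw [mat_eq_of_entries988 (a : Matrix (Fin 2) (Fin 2) (Adl K))]
  rw [h01, h10, h11]

/-- **(3)** `a⁻¹ n(u) a = n(u σ)` for `a` in the ray of `s > 0`. -/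
theorem conj_ray988 (a : G K) (s : ℝ) (hs : 0 < s) (ha : T1.IsRay K a s) :
    ∃ σ : Adl K, σ.2 = 1 ∧ (∀ w : InfinitePlace K, ‖σ.1 w‖ = s⁻¹) ∧
      ∀ u : Adl K, a⁻¹ * unip386 u * a = unip386 (u * σ) := by
  have hcoe := ray_coe988 a s ha
  obtain ⟨hfin, hinf⟩ := ha
  set α : Adl K := (a : Matrix (Fin 2) (Fin 2) (Adl K)) 0 0 with hα
  set σ : Adl K := ((a⁻¹ : G K) : Matrix (Fin 2) (Fin 2) (Adl K)) 0 0 with hσ
  -- `α σ = 1`
  have hασ : α * σ = 1 := by
    have h1 : ((a * a⁻¹ : G K) : Matrix (Fin 2) (Fin 2) (Adl K)) 0 0 = 1 := by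
      rw [mul_inv_cancel]
      simp
    rw [Units.val_mul, Matrix.mul_apply, Fin.sum_univ_two, hcoe] at h1
    have e00 : (!![α, 0; 0, 1] : Matrix (Fin 2) (Fin 2) (Adl K)) 0 0 = α := rfl
    have e01 : (!![α, 0; 0, 1] : Matrix (Fin 2) (Fin 2) (Adl K)) 0 1 = 0 := rfl
    rw [e00, e01, zero_mul, add_zero] at h1
    exact h1
  -- the finite part of `α` is `1`
  have hα2 : α.2 = 1 := by
    apply FiniteAdeleRing.ext K
    intro v
    have h := congrFun (congrFun (hfin v) 0) 0
    have h' : α.2 v = 1 := by simpa [finComp] using h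
    rw [h']
    rfl
  -- the infinite components of `α` have norm `s`
  have hα1 : ∀ w : InfinitePlace K, ‖α.1 w‖ = s := by
    intro w
    have h := congrFun (congrFun (hinf w) 0) 0
    have h' : InfinitePlace.Completion.extensionEmbedding w (α.1 w) = (s : ℂ) := by
      simpa [infComp] using h
    have hiso := (AddMonoidHomClass.isometry_iff_norm
      (InfinitePlace.Completion.extensionEmbedding w)).1
      (InfinitePlace.Completion.isometry_extensionEmbedding w) (α.1 w)
    rw [← hiso, h', Complex.norm_real, Real.norm_of_nonneg hs.le]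
  have hprod2 : α.2 * σ.2 = 1 := congrArg Prod.snd hασ
  have hprod1 : ∀ w : InfinitePlace K, α.1 w * σ.1 w = 1 := fun w =>
    congrFun (congrArg Prod.fst hασ) w
  refine ⟨σ, ?_, ?_, ?_⟩
  · rw [hα2, one_mul] at hprod2
    exact hprod2
  · intro w
    have h := congrArg norm (hprod1 w)
    rw [norm_mul, hα1 w, norm_one] at h
    exact eq_inv_of_mul_eq_one_right h
  · intro u
    rw [mul_assoc, inv_mul_eq_iff_eq_mul]
    apply Units.ext
    rw [Units.val_mul, Units.val_mul, unip386_coe, unip386_coe, hcoe]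
    exact unipMat_mul_diag988 u α σ hασ

/-! ## The leaf -/

/-- **T2.03a.3** `H511.ConjAlgC K`, unconditional. -/
theorem conjAlgC988 (K : Type) [Field K] [NumberField K] : ConjAlgC K := by
  refine ⟨?_, ?_, ?_⟩
  · intro m hm
    exact ⟨diagNat988 K m hm, by simp [T1.IsUpperRat, diagNat988_coe],
      fun u => conj_diagNat988 m hm u⟩
  · intro z hz u
    exact conj_central988 z hz u
  · intro a s hs ha
    exact conj_ray988 a s hs ha

/-- **T2.03a.3** the sub-leaf `H511.LeafConjAlg K`. -/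
theorem leafConjAlg988 (K : Type) [Field K] [NumberField K] : LeafConjAlg K :=
  conjAlgC988 K

end Fermat.Agent.LT.T2.H988

end
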